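import Fermat.Agent.S13T.Defs

/-! # Degrees, leading coefficients and base change of the ladder polynomials (task TD) -/

set_option autoImplicit false

namespace Fermat.Agent.S13T

open Polynomial

variable {R : Type*} [CommRing R]

/-- `f` has degree at most `d` and its coefficient of degree `d` is `c` -/
def LC (f : R[X]) (d : ℕ) (c : R) : Prop := f.natDegree ≤ d ∧ f.coeff d = c

namespace LC

variable {f g : R[X]} {d e : ℕ} {c c' : R}

theorem congr (h : LC f d c) (hd : d = e) (hc : c = c') : LC f e c' := by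
  subst hd; subst hc; exact h

theorem mul (hf : LC f d c) (hg : LC g e c') : LC (f * g) (d + e) (c * c') :=
  ⟨natDegree_mul_le_of_le hf.1 hg.1, by
    rw [coeff_mul_add_eq_of_natDegree_le hf.1 hg.1, hf.2, hg.2]⟩

theorem pow (hf : LC f d c) (n : ℕ) : LC (f ^ n) (n * d) (c ^ n) :=
  ⟨natDegree_pow_le_of_le n hf.1, by
    rw [coeff_pow_of_natDegree_le hf.1, hf.2]⟩

theorem add (hf : LC f d c) (hg : LC g d c') : LC (f + g) d (c + c') :=
  ⟨natDegree_add_le_of_degree_le hf.1 hg.1, by rw [coeff_add, hf.2, hg.2]⟩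

theorem sub (hf : LC f d c) (hg : LC g d c') : LC (f - g) d (c - c') :=
  ⟨(natDegree_sub_le_of_le hf.1 hg.1).trans (by simp), by rw [coeff_sub, hf.2, hg.2]⟩

theorem lt (hf : LC f d c) (h : d < e) : LC f e 0 :=
  ⟨hf.1.trans h.le, coeff_eq_zero_of_natDegree_lt (lt_of_le_of_lt hf.1 h)⟩

theorem C_mul (a : R) (hf : LC f d c) : LC (C a * f) d (a * c) :=
  ⟨(natDegree_C_mul_le a f).trans hf.1, by rw [coeff_C_mul, hf.2]⟩

theorem X : LC (X : R[X]) 1 1 := ⟨natDegree_X_le, coeff_X_one⟩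

theorem one : LC (1 : R[X]) 0 1 := ⟨by simp, by simp⟩

theorem zero (d : ℕ) : LC (0 : R[X]) d 0 := ⟨by simp, by simp⟩

end LC

variable (W : WeierstrassCurve R)

/-- the induction hypothesis -/
def DegOK (n : ℕ) : Prop :=
  LC (ladA W n) (n ^ 2) 1 ∧ LC (ladB W n) (n ^ 2 - 1) ((n : R) ^ 2)

theorem degOK_zero : DegOK W 0 := by
  refine ⟨?_, ?_⟩
  · rw [ladA_zero]; exact LC.one
  · rw [ladB_zero]; exact (LC.zero 0).congr rfl (by simp)

theorem degOK_one : DegOK W 1 := by
  refine ⟨?_, ?_⟩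
  · rw [ladA_one]; exact LC.X
  · rw [ladB_one]; exact LC.one.congr rfl (by simp)

theorem degOK_two_mul {k : ℕ} (hk : 0 < k) (h : DegOK W k) : DegOK W (2 * k) := by
  obtain ⟨hA, hB⟩ := h
  obtain ⟨s, hs⟩ : ∃ s, k ^ 2 = s + 1 := ⟨k ^ 2 - 1, by have := Nat.pow_pos (n := 2) hk; omega⟩
  have h2 : (2 * k) ^ 2 = 4 * s + 4 := by rw [mul_pow, hs]; ring
  rw [hs] at hA hB
  simp only [Nat.add_sub_cancel] at hB
  refine ⟨?_, ?_⟩
  · rw [ladA_two_mul, h2]
    have t1 := (hA.pow 4).congr (e := 4 * s + 4) (by ring) (one_pow 4)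
    have t2 := (((hA.pow 2).C_mul W.b₄).mul (hB.pow 2)).lt (e := 4 * s + 4) (by omega)
    have t3 := ((hA.C_mul (2 * W.b₆)).mul (hB.pow 3)).lt (e := 4 * s + 4) (by omega)
    have t4 := ((hB.pow 4).C_mul W.b₈).lt (e := 4 * s + 4) (by omega)
    exact (((t1.sub t2).sub t3).sub t4).congr rfl (by ring)
  · rw [ladB_two_mul, h2]
    have u1 := ((hA.pow 3).C_mul 4).congr (e := 3 * s + 3) (by ring) rfl
    have u2 := (((hA.pow 2).C_mul W.b₂).mul hB).lt (e := 3 * s + 3) (by omega)
    have u3 := ((hA.C_mul (2 * W.b₄)).mul (hB.pow 2)).lt (e := 3 * s + 3) (by omega)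
    have u4 := ((hB.pow 3).C_mul W.b₆).lt (e := 3 * s + 3) (by omega)
    exact (hB.mul (((u1.add u2).add u3).add u4)).congr (by omega) (by push_cast; ring)

theorem lc_ladD {k : ℕ} (hk : 0 < k) (h : DegOK W k) (h' : DegOK W (k + 1)) :
    LC (ladD W k) (2 * k ^ 2 + 2 * k) (2 * (k : R) + 1) := by
  obtain ⟨hA, hB⟩ := h
  obtain ⟨hA', hB'⟩ := h'
  obtain ⟨s, hs⟩ : ∃ s, k ^ 2 = s + 1 := ⟨k ^ 2 - 1, by have := Nat.pow_pos (n := 2) hk; omega⟩
  have hs' : (k + 1) ^ 2 = s + 2 * k + 2 := by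
    have : (k + 1) ^ 2 = k ^ 2 + 2 * k + 1 := by ring
    rw [this, hs]; ring
  rw [hs] at hA hB
  rw [hs'] at hA' hB'
  have e1 : s + 1 - 1 = s := by omega
  have e2 : s + 2 * k + 2 - 1 = s + 2 * k + 1 := by omega
  rw [e1] at hB
  rw [e2] at hB'
  rw [ladD_eq, hs]
  have t1 := (hA.mul hB').congr (e := 2 * (s + 1) + 2 * k) (by omega) rfl
  have t2 := (hA'.mul hB).congr (e := 2 * (s + 1) + 2 * k) (by omega) rfl
  exact (t1.sub t2).congr rfl (by push_cast; ring)

theorem degOK_two_mul_add_one {k : ℕ} (hk : 0 < k) (h : DegOK W k) (h' : DegOK W (k + 1)) :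
    DegOK W (2 * k + 1) := by
  have hD := lc_ladD W hk h h'
  obtain ⟨hA, hB⟩ := h
  obtain ⟨hA', hB'⟩ := h'
  obtain ⟨s, hs⟩ : ∃ s, k ^ 2 = s + 1 := ⟨k ^ 2 - 1, by have := Nat.pow_pos (n := 2) hk; omega⟩
  have hs' : (k + 1) ^ 2 = s + 2 * k + 2 := by
    have : (k + 1) ^ 2 = k ^ 2 + 2 * k + 1 := by ring
    rw [this, hs]; ring
  have h2 : (2 * k + 1) ^ 2 = 4 * s + 4 * k + 5 := by
    have : (2 * k + 1) ^ 2 = 4 * k ^ 2 + 4 * k + 1 := by ring
    rw [this, hs]; ring
  rw [hs] at hA hB hD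
  rw [hs'] at hA' hB'
  have e1 : s + 1 - 1 = s := by omega
  have e2 : s + 2 * k + 2 - 1 = s + 2 * k + 1 := by omega
  rw [e1] at hB
  rw [e2] at hB'
  refine ⟨?_, ?_⟩
  · rw [ladA_two_mul_add_one, h2]
    have f1 := ((hA.mul hB').congr (e := 2 * s + 2 * k + 2) (by omega) rfl).add
      ((hA'.mul hB).congr (e := 2 * s + 2 * k + 2) (by omega) rfl)
    have f2 := (((hB.mul hB').C_mul W.b₄).lt (e := 2 * s + 2 * k + 3) (by omega)).add
      (((hA.mul hA').C_mul 2).congr (e := 2 * s + 2 * k + 3) (by omega) rfl)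
    have t1 := (f1.mul f2).congr (e := 4 * s + 4 * k + 5) (by omega) rfl
    have t2 := (((hA.mul hA').mul (hB.mul hB')).C_mul W.b₂).lt (e := 4 * s + 4 * k + 5) (by omega)
    have t3 := (((hB.mul hB').pow 2).C_mul W.b₆).lt (e := 4 * s + 4 * k + 5) (by omega)
    have t4 := (LC.X.mul (hD.pow 2)).congr (e := 4 * s + 4 * k + 5) (by omega) rfl
    exact (((t1.add t2).add t3).sub t4).congr rfl (by push_cast; ring)
  · rw [ladB_two_mul_add_one, h2]
    exact (hD.pow 2).congr (by omega) (by push_cast; ring)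

theorem degOK (n : ℕ) : DegOK W n := by
  induction n using Nat.strong_induction_on with
  | _ n ih =>
    rcases Nat.even_or_odd' n with ⟨k, rfl | rfl⟩
    · rcases Nat.eq_zero_or_pos k with rfl | hk
      · exact degOK_zero W
      · exact degOK_two_mul W hk (ih k (by omega))
    · rcases Nat.eq_zero_or_pos k with rfl | hk
      · exact degOK_one W
      · exact degOK_two_mul_add_one W hk (ih k (by omega)) (ih (k + 1) (by omega))

theorem natDegree_ladA_le (n : ℕ) : (ladA W n).natDegree ≤ n ^ 2 := (degOK W n).1.1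

theorem coeff_ladA (n : ℕ) : (ladA W n).coeff (n ^ 2) = 1 := (degOK W n).1.2

theorem natDegree_ladB_le (n : ℕ) : (ladB W n).natDegree ≤ n ^ 2 - 1 := (degOK W n).2.1

theorem coeff_ladB (n : ℕ) : (ladB W n).coeff (n ^ 2 - 1) = (n : R) ^ 2 := (degOK W n).2.2

theorem lc_ladD' (k : ℕ) : LC (ladD W k) (2 * k ^ 2 + 2 * k) (2 * (k : R) + 1) := by
  rcases Nat.eq_zero_or_pos k with rfl | hk
  · rw [ladD_eq, ladA_zero, ladB_zero, ladB_one]
    have : (1 : R[X]) * 1 - ladA W (0 + 1) * 0 = 1 := by ring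
    rw [this]
    exact LC.one.congr (by simp) (by simp)
  · exact lc_ladD W hk (degOK W k) (degOK W (k + 1))

theorem natDegree_ladD_le (k : ℕ) : (ladD W k).natDegree ≤ 2 * k ^ 2 + 2 * k := (lc_ladD' W k).1

theorem coeff_ladD (k : ℕ) : (ladD W k).coeff (2 * k ^ 2 + 2 * k) = 2 * (k : R) + 1 :=
  (lc_ladD' W k).2

theorem lad_map {S : Type*} [CommRing S] (f : R →+* S) (n : ℕ) :
    ladA (W.map f) n = (ladA W n).map f ∧ ladB (W.map f) n = (ladB W n).map f := by
  induction n using Nat.strong_induction_on with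
  | _ n ih =>
    rcases Nat.even_or_odd' n with ⟨k, rfl | rfl⟩
    · rcases Nat.eq_zero_or_pos k with rfl | hk
      · simp [ladA_zero, ladB_zero]
      · obtain ⟨h1, h2⟩ := ih k (by omega)
        constructor
        · rw [ladA_two_mul, ladA_two_mul, h1, h2]
          simp only [Polynomial.map_sub, Polynomial.map_mul, Polynomial.map_pow, Polynomial.map_C,
            WeierstrassCurve.map_b₄, WeierstrassCurve.map_b₆, WeierstrassCurve.map_b₈, map_mul,
            map_ofNat, Polynomial.map_ofNat]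
        · rw [ladB_two_mul, ladB_two_mul, h1, h2]
          simp only [Polynomial.map_add, Polynomial.map_mul, Polynomial.map_pow, Polynomial.map_C,
            WeierstrassCurve.map_b₂, WeierstrassCurve.map_b₄, WeierstrassCurve.map_b₆, map_mul,
            map_ofNat, Polynomial.map_ofNat]
    · rcases Nat.eq_zero_or_pos k with rfl | hk
      · simp [ladA_one, ladB_one]
      · obtain ⟨h1, h2⟩ := ih k (by omega)
        obtain ⟨h3, h4⟩ := ih (k + 1) (by omega)
        constructor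
        · rw [ladA_two_mul_add_one, ladA_two_mul_add_one, ladD_eq, ladD_eq, h1, h2, h3, h4]
          simp only [Polynomial.map_add, Polynomial.map_sub, Polynomial.map_mul,
            Polynomial.map_pow, Polynomial.map_C, Polynomial.map_X,
            WeierstrassCurve.map_b₂, WeierstrassCurve.map_b₄, WeierstrassCurve.map_b₆, map_ofNat,
            Polynomial.map_ofNat]
        · rw [ladB_two_mul_add_one, ladB_two_mul_add_one, ladD_eq, ladD_eq, h1, h2, h3, h4]
          simp only [Polynomial.map_sub, Polynomial.map_mul, Polynomial.map_pow]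

theorem ladA_map {S : Type*} [CommRing S] (f : R →+* S) (n : ℕ) :
    ladA (W.map f) n = (ladA W n).map f := (lad_map W f n).1

theorem ladB_map {S : Type*} [CommRing S] (f : R →+* S) (n : ℕ) :
    ladB (W.map f) n = (ladB W n).map f := (lad_map W f n).2

theorem ladD_map {S : Type*} [CommRing S] (f : R →+* S) (k : ℕ) :
    ladD (W.map f) k = (ladD W k).map f := by
  rw [ladD_eq, ladD_eq, ladA_map, ladA_map, ladB_map, ladB_map]
  simp only [Polynomial.map_sub, Polynomial.map_mul]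

end Fermat.Agent.S13T
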