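import Fermat.Agent.S13T.Defs
import Fermat.Agent.S51lib.Dup

/-! # The ladder polynomials compute multiplication by `n` on `x`-coordinates -/

set_option autoImplicit false
set_option linter.unusedSectionVars false

namespace Fermat.Agent.S13T

open Polynomial WeierstrassCurve WeierstrassCurve.Affine Fermat.Agent.S51lib

variable {K : Type*} [Field K] [DecidableEq K] {E : WeierstrassCurve.Affine K}

/-- numerator of `x(P+Q) + x(P-Q)` -/
def sumN (E : WeierstrassCurve.Affine K) (x₁ x₂ : K) : K :=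
  (x₁ + x₂) * (E.b₄ + 2 * (x₁ * x₂)) + E.b₂ * (x₁ * x₂) + E.b₆

theorem sumN_self (x : K) : sumN E x x = gD E x := by
  simp only [sumN, gD]; ring

/-- `x(P+Q) + x(P-Q)` in terms of `x(P)`, `x(Q)`. -/
theorem xOf_add_add_xOf_sub {P Q : E.Point} (hP : P ≠ 0) (hQ : Q ≠ 0) (hx : xOf P ≠ xOf Q) :
    (xOf (P + Q) + xOf (P - Q)) * (xOf P - xOf Q) ^ 2 = sumN E (xOf P) (xOf Q) := by
  rcases P with _ | ⟨x₁, y₁, h₁⟩
  · exact absurd rfl hP
  rcases Q with _ | ⟨x₂, y₂, h₂⟩
  · exact absurd rfl hQ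
  simp only [xOf_some] at hx ⊢
  have hd : x₁ - x₂ ≠ 0 := sub_ne_zero.mpr hx
  rw [sub_eq_add_neg, Point.neg_some, Point.add_of_X_ne hx, Point.add_of_X_ne hx, xOf_some,
    xOf_some, slope_of_X_ne hx, slope_of_X_ne hx, addX, addX, sumN]
  have e₁ := (equation_iff _ _).mp h₁.1
  have e₂ := (equation_iff _ _).mp h₂.1
  simp only [negY, b₂, b₄, b₆]
  field_simp
  linear_combination 2 * e₁ + 2 * e₂

theorem two_nsmul_eq_zero_iff' {Q : E.Point} (hQ : Q ≠ 0) :
    (2 : ℕ) • Q = 0 ↔ gD E (xOf Q) = 0 := by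
  rcases Q with _ | ⟨x, y, h⟩
  · exact absurd rfl hQ
  exact two_nsmul_eq_zero_iff h

theorem fD_ne_zero_of_two_nsmul {Q : E.Point} (hQ : Q ≠ 0) (h2 : (2 : ℕ) • Q = 0) :
    fD E (xOf Q) ≠ 0 := by
  rcases Q with _ | ⟨x, y, h⟩
  · exact absurd rfl hQ
  exact fD_ne_zero_of_gD_eq_zero h ((two_nsmul_eq_zero_iff h).mp h2)

/-- the statement proved by strong induction -/
def Good (P : E.Point) (n : ℕ) : Prop :=
  (n • P = 0 → (ladB E n).eval (xOf P) = 0 ∧ (ladA E n).eval (xOf P) ≠ 0) ∧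
  (n • P ≠ 0 → (ladB E n).eval (xOf P) ≠ 0 ∧
    xOf (n • P) * (ladB E n).eval (xOf P) = (ladA E n).eval (xOf P))

theorem eval_ladA_two_mul (x : K) (k : ℕ) :
    (ladA E (2 * k)).eval x = (ladA E k).eval x ^ 4
      - E.b₄ * (ladA E k).eval x ^ 2 * (ladB E k).eval x ^ 2
      - 2 * E.b₆ * (ladA E k).eval x * (ladB E k).eval x ^ 3 - E.b₈ * (ladB E k).eval x ^ 4 := by
  rw [ladA_two_mul]
  simp only [eval_sub, eval_mul, eval_pow, eval_C]

theorem eval_ladB_two_mul (x : K) (k : ℕ) :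
    (ladB E (2 * k)).eval x = (ladB E k).eval x * (4 * (ladA E k).eval x ^ 3
      + E.b₂ * (ladA E k).eval x ^ 2 * (ladB E k).eval x
      + 2 * E.b₄ * (ladA E k).eval x * (ladB E k).eval x ^ 2 + E.b₆ * (ladB E k).eval x ^ 3) := by
  rw [ladB_two_mul]
  simp only [eval_add, eval_mul, eval_pow, eval_C]

theorem eval_ladD (x : K) (k : ℕ) :
    (ladD E k).eval x = (ladA E k).eval x * (ladB E (k + 1)).eval x
      - (ladA E (k + 1)).eval x * (ladB E k).eval x := by
  rw [ladD_eq]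
  simp only [eval_sub, eval_mul]

theorem eval_ladB_two_mul_add_one (x : K) (k : ℕ) :
    (ladB E (2 * k + 1)).eval x = (ladD E k).eval x ^ 2 := by
  rw [ladB_two_mul_add_one, eval_pow]

theorem eval_ladA_two_mul_add_one (x : K) (k : ℕ) :
    (ladA E (2 * k + 1)).eval x =
      ((ladA E k).eval x * (ladB E (k + 1)).eval x + (ladA E (k + 1)).eval x * (ladB E k).eval x)
        * (E.b₄ * ((ladB E k).eval x * (ladB E (k + 1)).eval x)
          + 2 * ((ladA E k).eval x * (ladA E (k + 1)).eval x))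
      + E.b₂ * ((ladA E k).eval x * (ladA E (k + 1)).eval x
          * ((ladB E k).eval x * (ladB E (k + 1)).eval x))
      + E.b₆ * ((ladB E k).eval x * (ladB E (k + 1)).eval x) ^ 2 - x * (ladD E k).eval x ^ 2 := by
  rw [ladA_two_mul_add_one]
  simp only [eval_add, eval_sub, eval_mul, eval_pow, eval_C, eval_X]

theorem good_two_mul {P : E.Point} {k : ℕ} (hk : Good P k) : Good P (2 * k) := by
  have hmul : (2 * k) • P = (2 : ℕ) • (k • P) := by rw [mul_comm, mul_nsmul]
  by_cases h0 : k • P = 0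
  · obtain ⟨hb, ha⟩ := hk.1 h0
    have h20 : (2 * k) • P = 0 := by rw [hmul, h0, nsmul_zero]
    refine ⟨fun _ => ⟨?_, ?_⟩, fun h => absurd h20 h⟩
    · rw [eval_ladB_two_mul, hb, zero_mul]
    · rw [eval_ladA_two_mul, hb]
      simpa using ha
  · obtain ⟨hb, ha⟩ := hk.2 h0
    set z := xOf (k • P) with hz
    set a := (ladA E k).eval (xOf P) with hadef
    set b := (ladB E k).eval (xOf P) with hbdef
    have eA : (ladA E (2 * k)).eval (xOf P) = b ^ 4 * fD E z := by
      rw [eval_ladA_two_mul, ← hadef, ← hbdef, ← ha]; simp only [fD]; ring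
    have eB : (ladB E (2 * k)).eval (xOf P) = b ^ 4 * gD E z := by
      rw [eval_ladB_two_mul, ← hadef, ← hbdef, ← ha]; simp only [gD]; ring
    have hb4 : b ^ 4 ≠ 0 := pow_ne_zero _ hb
    refine ⟨fun h => ?_, fun h => ?_⟩
    · rw [hmul] at h
      refine ⟨?_, ?_⟩
      · rw [eB, (two_nsmul_eq_zero_iff' h0).mp h, mul_zero]
      · rw [eA]; exact mul_ne_zero hb4 (fD_ne_zero_of_two_nsmul h0 h)
    · rw [hmul] at h ⊢
      obtain ⟨hg, hx⟩ := xOf_two_nsmul h0 h
      refine ⟨?_, ?_⟩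
      · rw [eB]; exact mul_ne_zero hb4 hg
      · rw [eA, eB, ← hx]; ring

theorem good_two_mul_add_one {P : E.Point} (hP : P ≠ 0) {k : ℕ} (hk : Good P k)
    (hk1 : Good P (k + 1)) : Good P (2 * k + 1) := by
  have hsucc : (k + 1) • P = k • P + P := succ_nsmul P k
  have hsum : (2 * k + 1) • P = (k + 1) • P + k • P := by
    rw [← add_nsmul]; congr 1; ring
  set x := xOf P with hx
  by_cases h0 : k • P = 0
  · -- `k P = 0`
    obtain ⟨hb, ha⟩ := hk.1 h0
    have h1 : (k + 1) • P = P := by rw [hsucc, h0, zero_add]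
    have h1' : (k + 1) • P ≠ 0 := by rw [h1]; exact hP
    obtain ⟨hb1, ha1⟩ := hk1.2 h1'
    rw [h1, ← hx] at ha1
    have h2 : (2 * k + 1) • P = P := by rw [hsum, h1, h0, add_zero]
    have hd : (ladD E k).eval x = (ladA E k).eval x * (ladB E (k + 1)).eval x := by
      rw [eval_ladD, hb, mul_zero, sub_zero]
    refine ⟨fun h => absurd (h2 ▸ h) hP, fun _ => ⟨?_, ?_⟩⟩
    · rw [eval_ladB_two_mul_add_one, hd]
      exact pow_ne_zero _ (mul_ne_zero ha hb1)
    · rw [h2, ← hx, eval_ladB_two_mul_add_one, eval_ladA_two_mul_add_one, hd, hb, ← ha1]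
      ring
  by_cases h1 : (k + 1) • P = 0
  · -- `(k+1) P = 0`
    obtain ⟨hb1, ha1⟩ := hk1.1 h1
    obtain ⟨hb, ha⟩ := hk.2 h0
    have hkP : k • P = -P := by
      rw [hsucc] at h1
      exact eq_neg_of_add_eq_zero_left h1
    rw [hkP, xOf_neg, ← hx] at ha
    have h2 : (2 * k + 1) • P = -P := by rw [hsum, h1, hkP, zero_add]
    have hd : (ladD E k).eval x = -((ladA E (k + 1)).eval x * (ladB E k).eval x) := by
      rw [eval_ladD, hb1, mul_zero, zero_sub]
    refine ⟨fun h => absurd (neg_eq_zero.mp (h2 ▸ h)) hP, fun _ => ⟨?_, ?_⟩⟩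
    · rw [eval_ladB_two_mul_add_one, hd]
      exact pow_ne_zero _ (neg_ne_zero.mpr (mul_ne_zero ha1 hb))
    · rw [h2, xOf_neg, ← hx, eval_ladB_two_mul_add_one, eval_ladA_two_mul_add_one, hd, hb1, ← ha]
      ring
  -- both nonzero
  obtain ⟨hb, ha⟩ := hk.2 h0
  obtain ⟨hb1, ha1⟩ := hk1.2 h1
  set z := xOf (k • P) with hz
  set z' := xOf ((k + 1) • P) with hz'
  set b := (ladB E k).eval x with hbdef
  set b' := (ladB E (k + 1)).eval x with hb'def
  have hd : (ladD E k).eval x = b * b' * (z - z') := by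
    rw [eval_ladD, ← ha, ← ha1]; ring
  have eA : (ladA E (2 * k + 1)).eval x = (b * b') ^ 2 * (sumN E z' z - x * (z' - z) ^ 2) := by
    rw [eval_ladA_two_mul_add_one, hd, ← ha, ← ha1, ← hbdef, ← hb'def]
    simp only [sumN]; ring
  have hbb : (b * b') ^ 2 ≠ 0 := pow_ne_zero _ (mul_ne_zero hb hb1)
  by_cases hzz : z' = z
  · have hneg : (k + 1) • P = -(k • P) := by
      rcases eq_or_eq_neg_of_xOf_eq h1 h0 hzz with h | h
      · exfalso
        rw [hsucc] at h
        exact hP (by simpa using h)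
      · exact h
    have h2 : (2 * k + 1) • P = 0 := by rw [hsum, hneg, neg_add_cancel]
    refine ⟨fun _ => ⟨?_, ?_⟩, fun h => absurd h2 h⟩
    · rw [eval_ladB_two_mul_add_one, hd, hzz, sub_self, mul_zero]; ring
    · rw [eA, hzz, sub_self, sumN_self]
      have hg : gD E z ≠ 0 := by
        intro hg
        have h22 : (2 : ℕ) • (k • P) = 0 := (two_nsmul_eq_zero_iff' h0).mpr hg
        have : k • P = -(k • P) := by
          rw [two_nsmul] at h22
          exact eq_neg_of_add_eq_zero_left h22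
        rw [← this, hsucc] at hneg
        exact hP (by simpa using hneg)
      simpa using mul_ne_zero hbb hg
  · have h2 : (2 * k + 1) • P ≠ 0 := by
      intro h
      rw [hsum] at h
      have : (k + 1) • P = -(k • P) := eq_neg_of_add_eq_zero_left h
      apply hzz
      rw [hz', this, xOf_neg]
    have hsub : (k + 1) • P - k • P = P := by rw [hsucc]; abel
    have key := xOf_add_add_xOf_sub h1 h0 hzz
    rw [hsub, ← hsum, ← hx, ← hz, ← hz'] at key
    refine ⟨fun h => absurd h h2, fun _ => ⟨?_, ?_⟩⟩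
    · rw [eval_ladB_two_mul_add_one, hd]
      refine pow_ne_zero _ (mul_ne_zero (mul_ne_zero hb hb1) ?_)
      exact sub_ne_zero.mpr (Ne.symm hzz)
    · rw [eval_ladB_two_mul_add_one, hd, eA, ← key]
      ring

theorem good {P : E.Point} (hP : P ≠ 0) (n : ℕ) : Good P n := by
  induction n using Nat.strong_induction_on with
  | _ n ih =>
    rcases Nat.even_or_odd' n with ⟨k, rfl | rfl⟩
    · rcases Nat.eq_zero_or_pos k with rfl | hk
      · refine ⟨fun _ => ?_, fun h => absurd (by simp) h⟩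
        simp [ladA_zero, ladB_zero]
      · exact good_two_mul (ih k (by omega))
    · rcases Nat.eq_zero_or_pos k with rfl | hk
      · refine ⟨fun h => absurd (by simpa using h) hP, fun _ => ?_⟩
        simp [ladA_one, ladB_one]
      · exact good_two_mul_add_one hP (ih k (by omega)) (ih (k + 1) (by omega))

/-- **Main link**: `n P = 0` iff `B_n (x(P)) = 0`. -/
theorem ladB_eval_eq_zero_iff {P : E.Point} (hP : P ≠ 0) (n : ℕ) :
    (ladB E n).eval (xOf P) = 0 ↔ n • P = 0 := by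
  constructor
  · intro h
    by_contra h0
    exact ((good hP n).2 h0).1 h
  · intro h
    exact ((good hP n).1 h).1

/-- `x(nP) = A_n(x(P)) / B_n(x(P))`. -/
theorem xOf_nsmul_mul {P : E.Point} (hP : P ≠ 0) {n : ℕ} (hn : n • P ≠ 0) :
    xOf (n • P) * (ladB E n).eval (xOf P) = (ladA E n).eval (xOf P) :=
  ((good hP n).2 hn).2

theorem ladA_eval_ne_zero {P : E.Point} (hP : P ≠ 0) {n : ℕ} (hn : n • P = 0) :
    (ladA E n).eval (xOf P) ≠ 0 :=
  ((good hP n).1 hn).2

/-- for odd `n = 2k+1`: `n P = 0` iff `D_k (x(P)) = 0`. -/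
theorem ladD_eval_eq_zero_iff {P : E.Point} (hP : P ≠ 0) (k : ℕ) :
    (ladD E k).eval (xOf P) = 0 ↔ (2 * k + 1) • P = 0 := by
  rw [← ladB_eval_eq_zero_iff hP, eval_ladB_two_mul_add_one]
  exact (pow_eq_zero_iff two_ne_zero).symm

end Fermat.Agent.S13T
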