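import Mathlib

/-!
# Ladder polynomials for multiplication by `n` on `x`-coordinates

`ladA W n / ladB W n` is the rational function `x(P) ↦ x(n P)`; they are defined by a binary
ladder (doubling and differential addition), so that the link with the group law is a
pointwise strong induction and no elliptic-divisibility-sequence identity is needed.
-/

set_option autoImplicit false

namespace Fermat.Agent.S13T

open Polynomial

variable {R : Type*} [CommRing R]

/-- doubling step on homogeneous `x`-coordinates -/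
noncomputable def dblStep (W : WeierstrassCurve R) (u : R[X] × R[X]) : R[X] × R[X] :=
  (u.1 ^ 4 - C W.b₄ * u.1 ^ 2 * u.2 ^ 2 - C (2 * W.b₆) * u.1 * u.2 ^ 3 - C W.b₈ * u.2 ^ 4,
   u.2 * (C 4 * u.1 ^ 3 + C W.b₂ * u.1 ^ 2 * u.2 + C (2 * W.b₄) * u.1 * u.2 ^ 2
      + C W.b₆ * u.2 ^ 3))

/-- the cross difference `A_k B_{k+1} - A_{k+1} B_k` -/
noncomputable def crossD (u v : R[X] × R[X]) : R[X] := u.1 * v.2 - v.1 * u.2

/-- differential addition step (the difference of the two points has `x`-coordinate `X`) -/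
noncomputable def addStep (W : WeierstrassCurve R) (u v : R[X] × R[X]) : R[X] × R[X] :=
  ((u.1 * v.2 + v.1 * u.2) * (C W.b₄ * (u.2 * v.2) + C 2 * (u.1 * v.1))
      + C W.b₂ * (u.1 * v.1 * (u.2 * v.2)) + C W.b₆ * (u.2 * v.2) ^ 2 - X * crossD u v ^ 2,
   crossD u v ^ 2)

/-- the ladder: `lad W n = (A_n, B_n)` with `x(nP) = A_n(x(P)) / B_n(x(P))` -/
noncomputable def lad (W : WeierstrassCurve R) : ℕ → R[X] × R[X]
  | 0 => (1, 0)
  | 1 => (X, 1)
  | (n + 2) =>
    if (n + 2) % 2 = 0 then dblStep W (lad W ((n + 2) / 2))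
    else addStep W (lad W ((n + 2) / 2)) (lad W ((n + 2) / 2 + 1))
termination_by n => n
decreasing_by all_goals omega

noncomputable def ladA (W : WeierstrassCurve R) (n : ℕ) : R[X] := (lad W n).1
noncomputable def ladB (W : WeierstrassCurve R) (n : ℕ) : R[X] := (lad W n).2
/-- `ladD W k` is a square root of `ladB W (2 k + 1)` -/
noncomputable def ladD (W : WeierstrassCurve R) (k : ℕ) : R[X] := crossD (lad W k) (lad W (k + 1))

theorem lad_zero (W : WeierstrassCurve R) : lad W 0 = (1, 0) := by rw [lad]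
theorem lad_one (W : WeierstrassCurve R) : lad W 1 = (X, 1) := by rw [lad]

theorem lad_two_mul (W : WeierstrassCurve R) (k : ℕ) : lad W (2 * k) = dblStep W (lad W k) := by
  rcases k with _ | k
  · simp [lad_zero, dblStep]
  · have h : 2 * (k + 1) = 2 * k + 2 := by ring
    rw [h, lad, if_pos (by omega)]
    congr 2
    omega

theorem lad_two_mul_add_one (W : WeierstrassCurve R) (k : ℕ) :
    lad W (2 * k + 1) = addStep W (lad W k) (lad W (k + 1)) := by
  rcases k with _ | k
  · simp only [Nat.mul_zero, Nat.zero_add, lad_zero, lad_one, addStep, crossD]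
    ext1
    · simp only [map_ofNat]; ring
    · simp
  · have h : 2 * (k + 1) + 1 = (2 * k + 1) + 2 := by ring
    rw [h, lad, if_neg (by omega)]
    have h1 : (2 * k + 1 + 2) / 2 = k + 1 := by omega
    rw [h1]

theorem ladA_zero (W : WeierstrassCurve R) : ladA W 0 = 1 := by simp [ladA, lad_zero]
theorem ladB_zero (W : WeierstrassCurve R) : ladB W 0 = 0 := by simp [ladB, lad_zero]
theorem ladA_one (W : WeierstrassCurve R) : ladA W 1 = X := by simp [ladA, lad_one]
theorem ladB_one (W : WeierstrassCurve R) : ladB W 1 = 1 := by simp [ladB, lad_one]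

theorem ladD_eq (W : WeierstrassCurve R) (k : ℕ) :
    ladD W k = ladA W k * ladB W (k + 1) - ladA W (k + 1) * ladB W k := rfl

theorem ladA_two_mul (W : WeierstrassCurve R) (k : ℕ) :
    ladA W (2 * k) = ladA W k ^ 4 - C W.b₄ * ladA W k ^ 2 * ladB W k ^ 2
      - C (2 * W.b₆) * ladA W k * ladB W k ^ 3 - C W.b₈ * ladB W k ^ 4 := by
  rw [ladA, lad_two_mul]; rfl

theorem ladB_two_mul (W : WeierstrassCurve R) (k : ℕ) :
    ladB W (2 * k) = ladB W k * (C 4 * ladA W k ^ 3 + C W.b₂ * ladA W k ^ 2 * ladB W k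
      + C (2 * W.b₄) * ladA W k * ladB W k ^ 2 + C W.b₆ * ladB W k ^ 3) := by
  rw [ladB, lad_two_mul]; rfl

theorem ladA_two_mul_add_one (W : WeierstrassCurve R) (k : ℕ) :
    ladA W (2 * k + 1) =
      (ladA W k * ladB W (k + 1) + ladA W (k + 1) * ladB W k)
        * (C W.b₄ * (ladB W k * ladB W (k + 1)) + C 2 * (ladA W k * ladA W (k + 1)))
      + C W.b₂ * (ladA W k * ladA W (k + 1) * (ladB W k * ladB W (k + 1)))
      + C W.b₆ * (ladB W k * ladB W (k + 1)) ^ 2 - X * ladD W k ^ 2 := by
  rw [ladA, lad_two_mul_add_one]; rfl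

theorem ladB_two_mul_add_one (W : WeierstrassCurve R) (k : ℕ) :
    ladB W (2 * k + 1) = ladD W k ^ 2 := by
  rw [ladB, lad_two_mul_add_one]; rfl

end Fermat.Agent.S13T
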